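import Mathlib
import Fermat.Agent.S41.Spec.PD

/-!
# Row S59, block M-FREE — frozen interface (sub-architect helper761)

Freeness of the Taylor–Wiles module over `O[Δ]` and the control theorem, in the Betti model of row S41:
`H(Γ', A) = Hom(Γ', A)` (Lean: `Additive Γ' →+ A`).

Data: `Γ ≤ SL(2,ℤ)` of finite index, a finite group `D` and `κ : Γ →* D` (onto), `Γ' := kerSub κ = ker κ`
viewed as a subgroup of `SL(2,ℤ)`.  `Γ` acts on `H(Γ', A)` by `conjAct κ g φ = φ ∘ (h ↦ g⁻¹ h g)`; the action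
factors through `D` (diamond operators).  `res κ`, `cor κ` are restriction and transfer between `Γ'` and `Γ`.

Route (plan: `coord/S59-MFREE.md`): by the Manin dictionary of row S41 (`Spec/PD.lean`, leaves D1–D3, TR-2,
all on main and valid for every finite-index subgroup containing `-1`)
`H(Γ', A) = Fun(X', A) / (Fun^S + Fun^{ST})`, `X' = SL(2,ℤ) ⧸ Γ'`, and `Fun(X', A)` is a free `A[D]`-module
(`D` acts freely on `X'` from the right).  Hence

* (A) `ker (cor) = I_D · H(Γ', A)`           (`KerCorStatement`),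
* (B) `cor` is onto                           (`CorSurjStatement`),
* (N) `res ∘ cor = ∑_d d`, `cor ∘ res = |D|` (`ResCorStatement`, `CorResStatement`),
* (D) `T_l = l + 1` on `Hom(Γ₀(M)/Γ₁(M), B)` (`EisensteinStatement`),
* (E) the norm criterion for freeness over `O[D]`, `D` a `p`-group (`NormCriterionStatement`),

and the assembly `FreeAbsStatement` / `FreeStatement`: for a Hecke-type idempotent `e` on `H(Γ', O)` on whose
image `T_l - (l + 1)` is bijective, `e H` is free over `O[D]` and `cor` induces `(e H)_D ≅ cor (e H)`.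
-/

set_option autoImplicit false

namespace Fermat.Agent.S59.MFree

open CongruenceSubgroup Matrix.SpecialLinearGroup
open Fermat.Agent.S41.Spec Fermat.Agent.S29.H642
open scoped MatrixGroups

universe u

/-! ## Definitions -/

section Defs

variable {Γ : Subgroup SL(2, ℤ)} {D : Type*} [Group D]

/-- `ker κ` as a subgroup of `SL(2,ℤ)`. -/
def kerSub (κ : Γ →* D) : Subgroup SL(2, ℤ) := κ.ker.map Γ.subtype

theorem mem_kerSub {κ : Γ →* D} {g : SL(2, ℤ)} : g ∈ kerSub κ ↔ ∃ h : g ∈ Γ, κ ⟨g, h⟩ = 1 := by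
  constructor
  · rintro ⟨γ, hγ, rfl⟩
    exact ⟨γ.2, hγ⟩
  · rintro ⟨h, hκ⟩
    exact ⟨⟨g, h⟩, hκ, rfl⟩

theorem kerSub_le (κ : Γ →* D) : kerSub κ ≤ Γ := fun _ hg => (mem_kerSub.mp hg).1

theorem conj_mem_kerSub (κ : Γ →* D) (g : Γ) {h : SL(2, ℤ)} (hh : h ∈ kerSub κ) :
    (g : SL(2, ℤ))⁻¹ * h * g ∈ kerSub κ := by
  obtain ⟨h1, h2⟩ := mem_kerSub.mp hh
  refine mem_kerSub.mpr ⟨Γ.mul_mem (Γ.mul_mem (Γ.inv_mem g.2) h1) g.2, ?_⟩
  have : (⟨(g : SL(2, ℤ))⁻¹ * h * g, Γ.mul_mem (Γ.mul_mem (Γ.inv_mem g.2) h1) g.2⟩ : Γ) =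
      g⁻¹ * ⟨h, h1⟩ * g := rfl
  rw [this, map_mul, map_mul, h2, mul_one, map_inv, inv_mul_cancel]

/-- Conjugation `h ↦ g⁻¹ h g` on `Γ' = ker κ`, for `g ∈ Γ`. -/
def conjKer (κ : Γ →* D) (g : Γ) : kerSub κ →* kerSub κ where
  toFun h := ⟨(g : SL(2, ℤ))⁻¹ * h * g, conj_mem_kerSub κ g h.2⟩
  map_one' := by
    apply Subtype.ext
    simp
  map_mul' a b := by
    apply Subtype.ext
    simp only [Subgroup.coe_mul]
    group

@[simp] theorem conjKer_coe (κ : Γ →* D) (g : Γ) (h : kerSub κ) :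
    ((conjKer κ g h : kerSub κ) : SL(2, ℤ)) = (g : SL(2, ℤ))⁻¹ * h * g := rfl

variable {A : Type*} [AddCommGroup A]

/-- The action of `Γ` on `H(Γ', A)`: `(g • φ)(h) = φ (g⁻¹ h g)` (diamond operators). -/
def conjAct (κ : Γ →* D) (g : Γ) (φ : Additive (kerSub κ) →+ A) : Additive (kerSub κ) →+ A :=
  φ.comp (MonoidHom.toAdditive (conjKer κ g))

@[simp] theorem conjAct_apply (κ : Γ →* D) (g : Γ) (φ : Additive (kerSub κ) →+ A) (h : kerSub κ) :
    conjAct κ g φ (Additive.ofMul h) = φ (Additive.ofMul (conjKer κ g h)) := rfl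

/-- Restriction `H(Γ, A) → H(Γ', A)`. -/
def res (κ : Γ →* D) (y : Additive Γ →+ A) : Additive (kerSub κ) →+ A :=
  y.comp (MonoidHom.toAdditive (Subgroup.inclusion (kerSub_le κ)))

@[simp] theorem res_apply (κ : Γ →* D) (y : Additive Γ →+ A) (h : kerSub κ) :
    res κ y (Additive.ofMul h) = y (Additive.ofMul (Subgroup.inclusion (kerSub_le κ) h)) := rfl

/-- Corestriction (transfer) `H(Γ', A) → H(Γ, A)`. -/
noncomputable def cor (κ : Γ →* D) (x : Additive (kerSub κ) →+ A) : Additive Γ →+ A :=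
  transferAlong (Subgroup.inclusion (kerSub_le κ)) x

/-- Classes vanishing on the elements of finite order (automatic if `A` is torsion-free). -/
def IsTorsionTrivial {G : Type*} [Group G] (φ : Additive G →+ A) : Prop :=
  ∀ γ : G, IsOfFinOrder γ → φ (Additive.ofMul γ) = 0

/-- `I_D · H_tt(Γ', A)`: the subgroup generated by the `g • y - y`, `y` torsion-trivial. -/
def augSub (κ : Γ →* D) (A : Type*) [AddCommGroup A] : AddSubgroup (Additive (kerSub κ) →+ A) :=
  AddSubgroup.closure {w | ∃ (g : Γ) (y : Additive (kerSub κ) →+ A),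
    IsTorsionTrivial y ∧ w = conjAct κ g y - y}

end Defs

/-! ## Leaves -/

/-- (A) `ker (cor) ⊆ I_D · H`.  Hypothesis (Ell): every element of finite order of `Γ` lies in `Γ'`
(automatic if `|D|` is prime to `6` and `-1 ∈ Γ'`). -/
def KerCorStatement : Prop :=
  ∀ (Γ : Subgroup SL(2, ℤ)) [Γ.FiniteIndex] (D : Type) [Group D] [Finite D] (κ : Γ →* D),
    (-1 : SL(2, ℤ)) ∈ kerSub κ → (∀ g : Γ, IsOfFinOrder g → κ g = 1) →
    ∀ (A : Type u) [AddCommGroup A] (x : Additive (kerSub κ) →+ A),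
      IsTorsionTrivial x → cor κ x = 0 → x ∈ augSub κ A

/-- (B) `cor` is onto (on torsion-trivial classes). -/
def CorSurjStatement : Prop :=
  ∀ (Γ : Subgroup SL(2, ℤ)) [Γ.FiniteIndex] (D : Type) [Group D] [Finite D] (κ : Γ →* D),
    (-1 : SL(2, ℤ)) ∈ kerSub κ →
    ∀ (A : Type u) [AddCommGroup A] (y : Additive Γ →+ A), IsTorsionTrivial y →
      ∃ x : Additive (kerSub κ) →+ A, IsTorsionTrivial x ∧ cor κ x = y

/-- (N1) `res ∘ cor = ∑_{d ∈ D} d` (norm). -/
def ResCorStatement : Prop :=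
  ∀ (Γ : Subgroup SL(2, ℤ)) (D : Type) [Group D] [Fintype D] (κ : Γ →* D) (s : D → Γ),
    (∀ d, κ (s d) = d) →
    ∀ (A : Type u) [AddCommGroup A] (x : Additive (kerSub κ) →+ A),
      res κ (cor κ x) = ∑ d, conjAct κ (s d) x

/-- (N2) `cor ∘ res = |D|`. -/
def CorResStatement : Prop :=
  ∀ (Γ : Subgroup SL(2, ℤ)) (D : Type) [Group D] [Fintype D] (κ : Γ →* D),
    Function.Surjective κ →
    ∀ (A : Type u) [AddCommGroup A] (y : Additive Γ →+ A),
      cor κ (res κ y) = Fintype.card D • y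

/-- (N3) `cor` is invariant under the diamond operators. -/
def CorConjStatement : Prop :=
  ∀ (Γ : Subgroup SL(2, ℤ)) (D : Type) [Group D] [Finite D] (κ : Γ →* D) (g : Γ)
    (A : Type u) [AddCommGroup A] (x : Additive (kerSub κ) →+ A),
      cor κ (conjAct κ g x) = cor κ x

/-- (D) Eisenstein: `T_l = l + 1` on the classes of `Γ₀(M)` which are trivial on `Γ₁(M)`. -/
def EisensteinStatement : Prop :=
  ∀ (M l : ℕ) [Fact l.Prime] (hl : ¬ l ∣ M), M ≠ 0 →
    ∀ (B : Type u) [AddCommGroup B] (φ : Additive (Gamma0 M) →+ B),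
      (∀ γ : Gamma0 M, ((((γ : SL(2, ℤ)) 1 1 : ℤ)) : ZMod M) = 1 → φ (Additive.ofMul γ) = 0) →
      heckeTransfer hl φ = (l + 1) • φ

/-- (E) Norm criterion: a finite free `O`-module with an action of a finite `p`-group `D`
(`p` not a unit of the discrete valuation ring `O`) such that `V^D = N V` and `ker N = I_D V`
is free over `O[D]`: it has an `O`-basis of the form `d • b i`. -/
def NormCriterionStatement : Prop :=
  ∀ (p : ℕ) [Fact p.Prime] (O : Type u) [CommRing O] [IsDomain O] [IsDiscreteValuationRing O],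
    ¬ IsUnit (p : O) →
    ∀ (D : Type) [Group D] [Fintype D], (∃ a : ℕ, Fintype.card D = p ^ a) →
    ∀ (V : Type u) [AddCommGroup V] [Module O V] [Module.Finite O V] [Module.Free O V]
      (ρ : Representation O D V),
      (∀ x : V, (∀ d, ρ d x = x) → ∃ z, x = ∑ d, ρ d z) →
      (∀ x : V, ∑ d, ρ d x = 0 → x ∈ Submodule.span O {w | ∃ d y, w = ρ d y - y}) →
      ∃ (n : ℕ) (b : Fin n → V),
        LinearIndependent O (fun z : D × Fin n => ρ z.1 (b z.2)) ∧
        Submodule.span O (Set.range fun z : D × Fin n => ρ z.1 (b z.2)) = ⊤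

/-! ## Assembly -/

/-- The conclusion: `e H` has an `O`-basis `d • b i` (freeness over `O[D]`), and the kernel of `cor` on
`e H` is `I_D · e H` (control). -/
def FreeConclusion {Γ : Subgroup SL(2, ℤ)} {D : Type} [Group D] [Fintype D] (κ : Γ →* D)
    (O : Type u) [CommRing O]
    (e : (Additive (kerSub κ) →+ O) →ₗ[O] (Additive (kerSub κ) →+ O)) : Prop :=
  (∃ (n : ℕ) (b : Fin n → (Additive (kerSub κ) →+ O)), (∀ i, e (b i) = b i) ∧
    ∀ s : D → Γ, (∀ d, κ (s d) = d) →
      LinearIndependent O (fun z : D × Fin n => conjAct κ (s z.1) (b z.2)) ∧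
      ∀ x, e x = x →
        x ∈ Submodule.span O (Set.range fun z : D × Fin n => conjAct κ (s z.1) (b z.2))) ∧
  (∀ x, e x = x → cor κ x = 0 →
    x ∈ Submodule.span O {w | ∃ (g : Γ) (y : Additive (kerSub κ) →+ O),
      e y = y ∧ w = conjAct κ g y - y}) ∧
  (∀ y : Additive Γ →+ O, ∃ x : Additive (kerSub κ) →+ O, cor κ x = y)

/-- **M-FREE, abstract form.**  `e` a projector commuting with the diamond operators, `t` an operator
commuting with `e` and the diamond operators, `c ∈ O` with `t - c` bijective on `e H` and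
"Eisenstein on the defect": `cor ((t - c) x) ∈ |D| · H(Γ, O)` for every `D`-invariant `x`. -/
def FreeAbsStatement : Prop :=
  ∀ (p : ℕ) [Fact p.Prime] (Γ : Subgroup SL(2, ℤ)) [Γ.FiniteIndex]
    (D : Type) [Group D] [Fintype D] (κ : Γ →* D),
    Function.Surjective κ → (∃ a : ℕ, Fintype.card D = p ^ a) →
    (-1 : SL(2, ℤ)) ∈ kerSub κ → (∀ g : Γ, IsOfFinOrder g → κ g = 1) →
    ∀ (O : Type u) [CommRing O] [IsDomain O] [IsDiscreteValuationRing O] [CharZero O],
      ¬ IsUnit (p : O) →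
    ∀ (e t : (Additive (kerSub κ) →+ O) →ₗ[O] (Additive (kerSub κ) →+ O)) (c : O),
      (∀ x, e (e x) = e x) → (∀ x, e (t x) = t (e x)) →
      (∀ (g : Γ) x, e (conjAct κ g x) = conjAct κ g (e x)) →
      (∀ (g : Γ) x, t (conjAct κ g x) = conjAct κ g (t x)) →
      (∀ x, (∀ g : Γ, conjAct κ g x = x) →
        ∃ y : Additive Γ →+ O, cor κ (t x - c • x) = Fintype.card D • y) →
      (∀ y, e y = y → ∃ x, e x = x ∧ t x - c • x = y) →
      (∀ x, e x = x → t x - c • x = 0 → x = 0) →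
      FreeConclusion κ O e

/-- **M-FREE** for `Γ = Γ₀(M)`, `Γ₁(M) ≤ Γ' = ker κ`: `t` is any operator on `H(Γ', O)` lifting `T_l`
(`cor ∘ t = T_l ∘ cor`), commuting with `e` and with the diamond operators, such that `t - (l + 1)` is
bijective on `e H` (`e` = projector on a non-Eisenstein part). -/
def FreeStatement : Prop :=
  ∀ (p M l : ℕ) [Fact p.Prime] [Fact l.Prime] (hl : ¬ l ∣ M), M ≠ 0 →
    ∀ (D : Type) [Group D] [Fintype D] (κ : Gamma0 M →* D),
    Function.Surjective κ → (∃ a : ℕ, Fintype.card D = p ^ a) →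
    (∀ g : Gamma0 M, IsOfFinOrder g → κ g = 1) →
    (∀ γ : Gamma0 M, ((((γ : SL(2, ℤ)) 1 1 : ℤ)) : ZMod M) = 1 → κ γ = 1) →
    ∀ (O : Type u) [CommRing O] [IsDomain O] [IsDiscreteValuationRing O] [CharZero O],
      ¬ IsUnit (p : O) →
    ∀ (e t : (Additive (kerSub κ) →+ O) →ₗ[O] (Additive (kerSub κ) →+ O)),
      (∀ x, e (e x) = e x) → (∀ x, e (t x) = t (e x)) →
      (∀ (g : Gamma0 M) x, e (conjAct κ g x) = conjAct κ g (e x)) →
      (∀ (g : Gamma0 M) x, t (conjAct κ g x) = conjAct κ g (t x)) →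
      (∀ x, cor κ (t x) = heckeTransfer hl (cor κ x)) →
      (∀ y, e y = y → ∃ x, e x = x ∧ t x - ((l : O) + 1) • x = y) →
      (∀ x, e x = x → t x - ((l : O) + 1) • x = 0 → x = 0) →
      FreeConclusion κ O e

/-- Assembly of the abstract form from the leaves. -/
def FreeAbsOfLeavesStatement : Prop :=
  KerCorStatement.{u} → CorSurjStatement.{u} → ResCorStatement.{u} → CorResStatement.{u} →
    CorConjStatement.{u} → NormCriterionStatement.{u} → FreeAbsStatement.{u}

/-- Assembly of the `Γ₀(M)` form. -/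
def FreeOfAbsStatement : Prop :=
  FreeAbsStatement.{u} → EisensteinStatement.{u} → FreeStatement.{u}

end Fermat.Agent.S59.MFree
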