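import Fermat.Agent.S59.MFree.Spec
import Fermat.Agent.S59.MFree.H761.KerCor
import Fermat.Agent.S59.MFree.H761.FreeAbs
import Fermat.Agent.S59.MFree.H57.Norm
import Fermat.Agent.S59.MFree.H565.NormCriterion
import Fermat.Agent.S59.MFree.H587.FreeOfAbs
import Fermat.Agent.S59.MFree.H941.Eisenstein

/-!
# S59, block M-FREE — unconditional assembly (sub-architect helper761)

* `freeAbs : FreeAbsStatement`   (abstract form, any finite-index `Γ ≤ SL(2,ℤ)`);
* `free    : FreeStatement`      (`Γ = Γ₀(M)`, `t` a lift of `T_l`): for a projector `e` on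
  `H = Hom(ker κ, O)` commuting with the diamond operators and with `t`, with `t - (l + 1)` bijective on `e H`,
  the module `e H` has an `O`-basis `d • b i` (`d ∈ D`), i.e. is free over `O[D]`, the kernel of `cor` on `e H` is
  `I_D · e H`, and `cor` is onto.

Leaves: A, B `H761.kerCor`, `H761.corSurj` (also `H714.corSurj`); N `H57.resCor/corRes/corConj`;
D `H941.eisenstein` (also `H361.eisenstein`); E `H565.normCriterion`; ASM1 `H761.freeAbs_of_leaves`;
ASM2 `H587.freeOfAbs`.
-/

set_option autoImplicit false

namespace Fermat.Agent.S59.MFree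

universe u

/-- **M-FREE, abstract form**, unconditional. -/
theorem freeAbs : FreeAbsStatement.{u} :=
  H761.freeAbs_of_leaves H761.kerCor H761.corSurj H57.resCor H57.corRes H57.corConj
    H565.normCriterion

/-- **M-FREE** for `Γ₀(M)`, unconditional. -/
theorem free : FreeStatement.{u} :=
  H587.freeOfAbs freeAbs H941.eisenstein

end Fermat.Agent.S59.MFree
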